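import Fermat.Agent.LT.CFT.H1.NormPos
import Fermat.Agent.S55.G.Rec.StepACycH511
import Fermat.Agent.S55.H414.CycloLocal
import Fermat.Agent.S55.G.Rec.WeakApproxPlaceH904

/-!
# Row LT, tower CFT, sub-tower REC2 (helper1), OFF-MAIN : leaf L5', part 1 (cyclotomic toolkit)

`c = H511.cyc m : G_ℚ → (ℤ/m)ˣ` the cyclotomic character (main), `C ≤ (ℤ/m)ˣ`,
`U₀ = c⁻¹(C)` (the group of the subfield `ℚ(μ_m)^C`).

* `exists_global_root`, `loc_acts` : local roots of unity are global; the local action is given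
  by the global character;
* `exists_loc_cyc_eq` : `c ∘ loc : G_{ℚ_ℓ} → (ℤ/ℓ^(n+1))ˣ` is surjective (main `H414`);
* `isOpenQ_comap_cyc` : `U₀` is open;
* `exists_conj_of_embedding` : the complex conjugation of an embedding `φ : ℚ̄ → ℂ`;
* `cyc_conj_eq_neg_one` : it has cyclotomic value `-1`;
* `isTC_comap_cyc` : `-1 ∉ C → IsTC U₀`.
-/

set_option autoImplicit false
set_option linter.style.haveILetI false

noncomputable section

namespace Fermat.Agent.LT.CFT.H1.L5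

open Fermat.Agent.S55.G.Rec Fermat.Agent.S55.G.Rec.H511

local notation "Qb" => AlgebraicClosure ℚ
local notation "GQ" => (AlgebraicClosure ℚ ≃ₐ[ℚ] AlgebraicClosure ℚ)

section Roots

variable (m : ℕ) [NeZero m] (q : ℕ) [Fact q.Prime]

local notation "Gq" => (PadicAlgCl q ≃ₐ[ℚ_[q]] PadicAlgCl q)

lemma iota_muQb_primitive : IsPrimitiveRoot (padicEmbedding q (muQb m)) m :=
  (muQb_spec m).map_of_injective (padicEmbedding_injective q)

/-- Every local `m`-th root of unity is the image of a global one. -/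
lemma exists_global_root (ζ : PadicAlgCl q) (hζ : ζ ^ m = 1) :
    ∃ ζ₀ : Qb, ζ₀ ^ m = 1 ∧ padicEmbedding q ζ₀ = ζ := by
  obtain ⟨i, -, rfl⟩ := (iota_muQb_primitive m q).eq_pow_of_pow_eq_one hζ
  refine ⟨muQb m ^ i, ?_, by rw [map_pow]⟩
  rw [← pow_mul, mul_comm, pow_mul, (muQb_spec m).pow_eq_one, one_pow]

/-- The local action on `μ_m` is given by the global cyclotomic character. -/
lemma loc_acts (τ : Gq) (ζ : PadicAlgCl q) (hζ : ζ ^ m = 1) :
    τ ζ = ζ ^ ((cyc m (localGaloisToGlobal q τ) : (ZMod m)ˣ) : ZMod m).val := by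
  obtain ⟨ζ₀, hζ₀, rfl⟩ := exists_global_root m q ζ hζ
  rw [← padicEmbedding_localGaloisToGlobal, cyc_spec m _ hζ₀, map_pow]

/-- Elements with trivial cyclotomic value fix the local roots of unity. -/
lemma loc_fixes_of_cyc_eq_one (τ : Gq) (h : cyc m (localGaloisToGlobal q τ) = 1)
    (ζ : PadicAlgCl q) (hζ : ζ ^ m = 1) : τ ζ = ζ := by
  obtain ⟨ζ₀, hζ₀, rfl⟩ := exists_global_root m q ζ hζ
  rw [← padicEmbedding_localGaloisToGlobal, fixes_of_cyc_eq_one m _ h hζ₀]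

end Roots

/-- `c ∘ loc` is surjective onto `(ℤ/ℓ^(n+1))ˣ`. -/
theorem exists_loc_cyc_eq (ℓ : ℕ) [Fact ℓ.Prime] (n : ℕ) [NeZero (ℓ ^ (n + 1))]
    (u : (ZMod (ℓ ^ (n + 1)))ˣ) :
    ∃ τ : PadicAlgCl ℓ ≃ₐ[ℚ_[ℓ]] PadicAlgCl ℓ,
      cyc (ℓ ^ (n + 1)) (localGaloisToGlobal ℓ τ) = u := by
  have hζ := iota_muQb_primitive (ℓ ^ (n + 1)) ℓ
  obtain ⟨τ, hτ⟩ := Fermat.Agent.S55.H414.exists_local_algEquiv_pow ℓ n hζ
    (u : ZMod (ℓ ^ (n + 1))).val (ZMod.val_coe_unit_coprime u)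
  refine ⟨τ, Units.ext ?_⟩
  have hact : ∀ ζ : PadicAlgCl ℓ, ζ ^ (ℓ ^ (n + 1)) = 1 →
      τ ζ = ζ ^ (u : ZMod (ℓ ^ (n + 1))).val := by
    intro ζ hζ1
    obtain ⟨i, -, rfl⟩ := hζ.eq_pow_of_pow_eq_one hζ1
    rw [map_pow, hτ, ← pow_mul, ← pow_mul, mul_comm]
  rw [cyc_loc_coe ℓ (ℓ ^ (n + 1)) _ τ hact, ZMod.natCast_zmod_val]

section Global

variable (m : ℕ) [NeZero m]

/-- The group of a subfield of `ℚ(μ_m)` is open. -/
theorem isOpenQ_comap_cyc (C : Subgroup (ZMod m)ˣ) : IsOpenQ (C.comap (cyc m)) := by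
  haveI : Algebra.IsAlgebraic ℚ Qb := AlgebraicClosure.isAlgebraic ℚ
  refine ⟨IntermediateField.adjoin ℚ {muQb m}, ?_, ?_⟩
  · exact IntermediateField.adjoin.finiteDimensional
      (Algebra.IsAlgebraic.isAlgebraic (muQb m)).isIntegral
  · intro σ hσ
    show cyc m σ ∈ C
    have hfix : σ (muQb m) = muQb m :=
      (IntermediateField.mem_fixingSubgroup_iff _ _).1 hσ _
        (IntermediateField.subset_adjoin ℚ _ (Set.mem_singleton _))
    have h1 : cyc m σ = 1 := by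
      apply cyc_eq_one_of_fixes
      intro ζ hζ
      obtain ⟨i, -, rfl⟩ := (muQb_spec m).eq_pow_of_pow_eq_one hζ
      rw [map_pow, hfix]
    rw [h1]
    exact C.one_mem

/-- The complex conjugation attached to an embedding `φ : ℚ̄ → ℂ`. -/
theorem exists_conj_of_embedding (φ : Qb →+* ℂ) :
    ∃ c : GQ, ∀ x : Qb, φ (c x) = (starRingEnd ℂ) (φ x) := by
  haveI : Algebra.IsAlgebraic ℚ Qb := AlgebraicClosure.isAlgebraic ℚ
  haveI : IsAlgClosure ℚ Qb := ⟨inferInstance, AlgebraicClosure.isAlgebraic ℚ⟩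
  letI : Algebra Qb ℂ := φ.toAlgebra
  haveI : IsScalarTower ℚ Qb ℂ := IsScalarTower.of_algebraMap_eq fun x => by
    show algebraMap ℚ ℂ x = φ (algebraMap ℚ Qb x)
    rw [eq_ratCast, eq_ratCast, map_ratCast]
  haveI : Normal ℚ Qb := IsAlgClosure.normal ℚ Qb
  exact ⟨(Complex.conjAe.restrictScalars ℚ).restrictNormal Qb, fun x =>
    AlgEquiv.restrictNormal_commutes (Complex.conjAe.restrictScalars ℚ) Qb x⟩

/-- A complex conjugation has cyclotomic value `-1`. -/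
theorem cyc_conj_eq_neg_one (φ : Qb →+* ℂ) (c : GQ)
    (hc : ∀ x : Qb, φ (c x) = (starRingEnd ℂ) (φ x)) : cyc m c = -1 := by
  have hm : 1 ≤ m := Nat.one_le_iff_ne_zero.mpr (NeZero.ne m)
  apply Units.ext
  rw [cyc_coe_eq_of_acts m c (m - 1) ?_]
  · rw [Nat.cast_sub hm, ZMod.natCast_self, zero_sub, Nat.cast_one, Units.val_neg, Units.val_one]
  · intro ζ hζ
    apply φ.injective
    rw [hc, map_pow]
    have h1 : (φ ζ) ^ m = 1 := by rw [← map_pow, hζ, map_one]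
    have h2 : ‖φ ζ‖ = 1 := Complex.norm_eq_one_of_pow_eq_one h1 (NeZero.ne m)
    rw [← Complex.inv_eq_conj h2]
    have h3 : (φ ζ) ^ (m - 1) * φ ζ = 1 := by
      rw [← pow_succ, Nat.sub_add_cancel hm, h1]
    exact (eq_inv_of_mul_eq_one_left h3).symm

/-- If `-1 ∉ C`, the subfield `ℚ(μ_m)^C` is totally complex. -/
theorem isTC_comap_cyc (C : Subgroup (ZMod m)ˣ) (hC : (-1 : (ZMod m)ˣ) ∉ C) :
    IsTC (C.comap (cyc m)) := by
  intro φ
  by_contra hcon
  push_neg at hcon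
  obtain ⟨c, hc⟩ := exists_conj_of_embedding φ
  have hmem : c ∈ (IntermediateField.fixedField (C.comap (cyc m))).fixingSubgroup := by
    rw [IntermediateField.mem_fixingSubgroup_iff]
    intro x hx
    apply φ.injective
    rw [hc]
    exact hcon x (fun u hu => hx ⟨u, hu⟩)
  rw [H904.fixingSubgroup_fixedField_of_isOpenQ (isOpenQ_comap_cyc m C)] at hmem
  apply hC
  rw [← cyc_conj_eq_neg_one m φ c hc]
  exact hmem

end Global

end Fermat.Agent.LT.CFT.H1.L5
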