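import Fermat.Agent.LT.CFT.H1.L5.Cyc
import Fermat.Agent.S55.H413.WRGlobal
import Fermat.Agent.S55.G.Rec.L2H931
import Fermat.Agent.S55.G.Rec.L4L6H854
import Fermat.Agent.S55.G.Rec.OrbitNormH934
import Fermat.Agent.S55.G.Rec.H124.ProductFormula
import Fermat.Agent.S55.G.Rec.VdegH707
import Fermat.Agent.S55.G.Rec.SCH174.Reps
import Fermat.Agent.S55.G.Rec.StepAH511

/-!
# Row LT, tower CFT, sub-tower REC2 (helper1), OFF-MAIN : leaf L5', part 2 (the global statement)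

`unitResidue_norm_mem` : `m = ℓ^e`, `C ≤ (ℤ/m)ˣ`, `K₀ = ℚ(μ_m)^C` (group `U₀ = c⁻¹(C)`),
`a ∈ K₀ˣ`, `y = N_{K₀/ℚ}(a) ∈ ℚˣ`.  Then the residue mod `ℓ^e` of the `ℓ`-adic unit part of `y`
lies in `C`.

Proof.  By the elementary product formula of `ℚ` (main `H413.signChar_mul_wildChar_mul_tameProd`)
the residue is `sign(y) · ∏_{q ≠ ℓ} q ^ v_q(y)`.
* `q ^ v_q(y) = ∏_{v | q} (q ^ f_v) ^ ord_v(a)` (product formula of `K₀`, main `H124`) and
  `q ^ f_v = c(Frob_v)` with `Frob_v ∈ U₀` (main L2, L4), so the product lies in `c(U₀) ≤ C`;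
* `sign(y) = 1` if `-1 ∉ C` (`K₀` totally complex, `normPos`), and `-1 ∈ C` otherwise.
-/

set_option autoImplicit false
set_option linter.style.haveILetI false

noncomputable section

namespace Fermat.Agent.LT.CFT.H1.L5

open Fermat.Agent.S55.G.Rec Fermat.Agent.S55.G.Rec.H511 Fermat.Agent.S55.H413

local notation "Qb" => AlgebraicClosure ℚ
local notation "GQ" => (AlgebraicClosure ℚ ≃ₐ[ℚ] AlgebraicClosure ℚ)

variable (ℓ : ℕ) [hℓ : Fact ℓ.Prime] (e : ℕ) [NeZero (ℓ ^ e)]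

/-- The Frobenius computation at one place `(q, r)`, `q ≠ ℓ`: `q ^ vdeg ∈ C`. -/
theorem primeUnit_zpow_vdeg_mem (C : Subgroup (ZMod (ℓ ^ e))ˣ) (a : Qbˣ)
    (ha : GFixed (C.comap (cyc (ℓ ^ e))) a) (q : ℕ) [hq : Fact q.Prime] (hqℓ : q ≠ ℓ) (r : GQ) :
    primeUnit ℓ e q hqℓ ^
      vdeg q (locSub q r (C.comap (cyc (ℓ ^ e)))) (locPushMul q r a) ∈ C := by
  set U₀ : Subgroup GQ := C.comap (cyc (ℓ ^ e)) with hU₀
  have hU : IsOpenQ U₀ := isOpenQ_comap_cyc (ℓ ^ e) C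
  have hV : IsOpenL q (locSub q r U₀) := isOpenL_locSub q r U₀ hU
  have hqm : ¬ q ∣ ℓ ^ e := fun h =>
    hqℓ ((Nat.prime_dvd_prime_iff_eq hq.out hℓ.out).mp (hq.out.dvd_of_dvd_pow h))
  have har : LFixed q (locSub q r U₀) (locPushMul q r a) := H934.lFixed_locPushMul q ha r
  obtain ⟨f, φ, π, hf, hφV, hφ, -, -, hall⟩ := H931.localStructure q (locSub q r U₀) hV
  obtain ⟨k, u, -, -, -, hvdeg⟩ := hall (locPushMul q r a) har
  have hσ : cyc (ℓ ^ e) ((locHom q r U₀ ⟨φ, hφV⟩ : ↥U₀) : GQ) ∈ C :=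
    (locHom q r U₀ ⟨φ, hφV⟩).2
  have hcyc : cyc (ℓ ^ e) ((locHom q r U₀ ⟨φ, hφV⟩ : ↥U₀) : GQ) = primeUnit ℓ e q hqℓ ^ f := by
    apply Units.ext
    rw [locHom_coe, cyc_conj, cyc_loc_coe q (ℓ ^ e) (q ^ f) φ ((H854.cycloFrob q (ℓ ^ e) hqm).2 φ f hφ),
      Units.val_pow_eq_pow_val, coe_primeUnit, Nat.cast_pow]
  rw [hvdeg, zpow_mul, zpow_natCast, ← hcyc]
  exact C.zpow_mem hσ k

/-- The tame part of the norm lies in `C`. -/
theorem tameProd_norm_mem (C : Subgroup (ZMod (ℓ ^ e))ˣ) (a : Qbˣ)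
    (ha : GFixed (C.comap (cyc (ℓ ^ e))) a) (y : ℚˣ)
    (hy : ((relNorm (C.comap (cyc (ℓ ^ e))) a : Qbˣ) : Qb) = algebraMap ℚ Qb (y : ℚ)) :
    tameProd ℓ e y ∈ C := by
  classical
  set U₀ : Subgroup GQ := C.comap (cyc (ℓ ^ e)) with hU₀
  have hU : IsOpenQ U₀ := isOpenQ_comap_cyc (ℓ ^ e) C
  rw [tameProd_apply]
  refine finprod_induction (fun x => x ∈ C) C.one_mem (fun x y hx hy => C.mul_mem hx hy) ?_
  intro q
  by_cases hqℓ : (q : ℕ) = ℓ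
  · rw [tameGlobal_of_eq ℓ e q hqℓ]
    exact C.one_mem
  · haveI : Fact (q : ℕ).Prime := ⟨q.2⟩
    rw [tameGlobal_of_ne ℓ e q hqℓ]
    obtain ⟨R, hR⟩ := H174.exists_placeReps hU (q : ℕ)
    have hpf := H124.productFormula_of H934.orbitNorm VdegH707.vdegSpec U₀ hU a ha y hy
      (q : ℕ) R hR
    rw [hpf, ← prod_zpow_const]
    exact Subgroup.prod_mem _ fun r _ => primeUnit_zpow_vdeg_mem ℓ e C a ha (q : ℕ) hqℓ r

omit hℓ in
/-- The sign of the norm lies in `C`. -/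
theorem signChar_norm_mem (C : Subgroup (ZMod (ℓ ^ e))ˣ) (a : Qbˣ)
    (ha : GFixed (C.comap (cyc (ℓ ^ e))) a) (y : ℚˣ)
    (hy : ((relNorm (C.comap (cyc (ℓ ^ e))) a : Qbˣ) : Qb) = algebraMap ℚ Qb (y : ℚ)) :
    signChar ℓ e y ∈ C := by
  by_cases hpos : 0 < (y : ℚ)
  · rw [signChar_of_pos ℓ e y hpos]
    exact C.one_mem
  · have hneg : (-1 : (ZMod (ℓ ^ e))ˣ) ∈ C := by
      by_contra hC
      exact hpos (normPos _ (isOpenQ_comap_cyc (ℓ ^ e) C) (isTC_comap_cyc (ℓ ^ e) C hC) a ha y hy)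
    have h1 : signChar ℓ e y = -1 := by
      simp [signChar, hpos]
    rw [h1]
    exact hneg

/-- **The global statement**: the unit residue of a norm from `ℚ(μ_{ℓ^e})^C` lies in `C`. -/
theorem unitResidue_norm_mem (C : Subgroup (ZMod (ℓ ^ e))ˣ) (a : Qbˣ)
    (ha : GFixed (C.comap (cyc (ℓ ^ e))) a) (y : ℚˣ)
    (hy : ((relNorm (C.comap (cyc (ℓ ^ e))) a : Qbˣ) : Qb) = algebraMap ℚ Qb (y : ℚ)) :
    unitResidue ℓ e (toPadicUnits ℓ y) ∈ C := by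
  have h := signChar_mul_wildChar_mul_tameProd ℓ e y
  rw [wildChar_apply] at h
  have h2 : unitResidue ℓ e (toPadicUnits ℓ y) = signChar ℓ e y * tameProd ℓ e y := by
    have h3 : signChar ℓ e y * tameProd ℓ e y * (unitResidue ℓ e (toPadicUnits ℓ y))⁻¹ = 1 := by
      rw [← h, mul_right_comm]
    exact (mul_inv_eq_one.mp h3).symm
  rw [h2]
  exact C.mul_mem (signChar_norm_mem ℓ e C a ha y hy) (tameProd_norm_mem ℓ e C a ha y hy)

end Fermat.Agent.LT.CFT.H1.L5
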