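import Fermat.Agent.LT.CFT.H1.L5.Global
import Fermat.Agent.S55.G.Rec.WeakApproxLocalH904
import Fermat.Agent.S55.G.Rec.RelNormH707

/-!
# Row LT, tower CFT, sub-tower REC2 (helper1), OFF-MAIN : leaf L5' = `LocalCycloNormSharpSpec`
(PROVED, every prime `ℓ`, `2` included)

`localCycloNormSharp : LocalCycloNormSharpSpec`.

GLOBAL route, no local class field theory.  `m = ℓ^e`, `W ≤ G_{ℚ_ℓ}` containing the group of
`ℚ̄_ℓ/ℚ_ℓ(μ_m)`, `C = c(W) ≤ (ℤ/m)ˣ`, `U₀ = c⁻¹(C) ≤ G_ℚ`, `K₀ = ℚ̄^{U₀} = ℚ(μ_m)^C`.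
* `locSub ℓ 1 U₀ = W` and `{1}` is a system of representatives of `U₀ \ G_ℚ / D_ℓ`
  (`c ∘ loc` is surjective), so by main G1 (`H934.orbitNorm`) the local norm of a global element
  is its global norm;
* `K₀` is dense in the fixed field of `W` (main `H904.mem_closure_of_isFixedBy`) and the local
  norm maps `1 + ℓ^e 𝒪` into `1 + ℓ^e ℤ_ℓ`; so the unit residue of `N(b)` is the unit residue of a
  global norm, which lies in `C` (`unitResidue_norm_mem`).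
-/

set_option autoImplicit false
set_option linter.style.haveILetI false

noncomputable section

namespace Fermat.Agent.LT.CFT.H1.L5

open Fermat.Agent.S55.G.Rec Fermat.Agent.S55.G.Rec.H511 Fermat.Agent.S55.H413

local notation "Qb" => AlgebraicClosure ℚ
local notation "GQ" => (AlgebraicClosure ℚ ≃ₐ[ℚ] AlgebraicClosure ℚ)

/-! ## `ℓ`-adic estimates -/

section Padic

variable (ℓ : ℕ) [hℓ : Fact ℓ.Prime]

/-- The norm estimate: `‖y - ℓ^k · t‖ ≤ ‖ℓ‖^(k + m)` where `k = v(y)` and `t` is the canonical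
lift of the residue mod `ℓ^m` of the unit part of `y`.  (Copy of main
`H413.norm_sub_unitResidue_le`.) -/
theorem norm_sub_unitResidue_le' (m : ℕ) (y : ℚ_[ℓ]ˣ) :
    ‖(y : ℚ_[ℓ]) - (ℓ : ℚ_[ℓ]) ^ ((y : ℚ_[ℓ]).valuation) *
        (((unitResidue ℓ m y : (ZMod (ℓ ^ m))ˣ) : ZMod (ℓ ^ m)).val : ℚ_[ℓ])‖
      ≤ ‖(ℓ : ℚ_[ℓ])‖ ^ ((y : ℚ_[ℓ]).valuation + m) := by
  have : NeZero (ℓ ^ m) := ⟨(pow_pos hℓ.out.pos _).ne'⟩
  set u : ℤ_[ℓ] := ((unitPart ℓ y : ℤ_[ℓ]ˣ) : ℤ_[ℓ]) with hu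
  set t : ℕ := ((unitResidue ℓ m y : (ZMod (ℓ ^ m))ˣ) : ZMod (ℓ ^ m)).val with ht
  have h1 : PadicInt.toZModPow m (u - (t : ℤ_[ℓ])) = 0 := by
    rw [map_sub, map_natCast, ht, ZMod.natCast_zmod_val, coe_unitResidue, sub_self]
  have h2 : u - (t : ℤ_[ℓ]) ∈ (Ideal.span {(ℓ : ℤ_[ℓ]) ^ m} : Ideal ℤ_[ℓ]) := by
    rw [← PadicInt.ker_toZModPow]
    exact h1
  have h3 : ‖u - (t : ℤ_[ℓ])‖ ≤ (ℓ : ℝ) ^ (-m : ℤ) :=
    (PadicInt.norm_le_pow_iff_mem_span_pow _ _).2 h2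
  have hy' := eq_unitPart_mul ℓ y
  rw [← hu] at hy'
  have h4 : (y : ℚ_[ℓ]) - (ℓ : ℚ_[ℓ]) ^ ((y : ℚ_[ℓ]).valuation) * (t : ℚ_[ℓ]) =
      (ℓ : ℚ_[ℓ]) ^ ((y : ℚ_[ℓ]).valuation) * ((u - (t : ℤ_[ℓ]) : ℤ_[ℓ]) : ℚ_[ℓ]) := by
    rw [PadicInt.coe_sub, PadicInt.coe_natCast]
    linear_combination hy'
  have hℓn : ‖(ℓ : ℚ_[ℓ])‖ ≠ 0 := by
    rw [Padic.norm_p]
    exact inv_ne_zero (by exact_mod_cast hℓ.out.ne_zero)
  rw [h4, norm_mul, zpow_add₀ hℓn, norm_zpow]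
  refine mul_le_mul_of_nonneg_left ?_ (by positivity)
  rw [PadicInt.padic_norm_e_of_padicInt, Padic.norm_p, zpow_natCast, inv_pow, ← zpow_natCast,
    ← zpow_neg]
  exact h3

/-- Units which are `≡ 1 mod ℓ^m` have trivial unit residue. -/
theorem unitResidue_eq_one_of_norm_sub_one_le (m : ℕ) (hm : 0 < m) (z : ℚ_[ℓ]ˣ)
    (hz : ‖(z : ℚ_[ℓ]) - 1‖ ≤ ‖(ℓ : ℚ_[ℓ])‖ ^ m) : unitResidue ℓ m z = 1 := by
  have hℓ1 : ‖(ℓ : ℚ_[ℓ])‖ < 1 := Padic.norm_p_lt_one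
  have hlt : ‖(z : ℚ_[ℓ]) - 1‖ < 1 :=
    hz.trans_lt (pow_lt_one₀ (norm_nonneg _) hℓ1 hm.ne')
  have hnorm : ‖(z : ℚ_[ℓ])‖ = 1 := by
    have h1 : (z : ℚ_[ℓ]) = 1 + ((z : ℚ_[ℓ]) - 1) := by ring
    rw [h1]
    have h2 : ‖((z : ℚ_[ℓ]) - 1)‖ < ‖(1 : ℚ_[ℓ])‖ := by rwa [norm_one]
    rw [IsUltrametricDist.norm_add_eq_max_of_norm_ne_norm (ne_of_gt h2), norm_one,
      max_eq_left hlt.le]
  have hval : (z : ℚ_[ℓ]).valuation = 0 := by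
    have h1 := Padic.norm_eq_zpow_neg_valuation z.ne_zero
    rw [hnorm] at h1
    have hℓr : (1 : ℝ) < (ℓ : ℝ) := by exact_mod_cast hℓ.out.one_lt
    have h2 : ((ℓ : ℝ) ^ (-(z : ℚ_[ℓ]).valuation)) = (ℓ : ℝ) ^ (0 : ℤ) := by
      rw [← h1, zpow_zero]
    have h3 := zpow_right_injective₀ (by positivity) hℓr.ne' h2
    omega
  have hu : (((unitPart ℓ z : ℤ_[ℓ]ˣ) : ℤ_[ℓ]) : ℚ_[ℓ]) = (z : ℚ_[ℓ]) := by
    rw [coe_unitPart, hval]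
    simp
  apply Units.ext
  rw [coe_unitResidue, Units.val_one]
  have h4 : ((unitPart ℓ z : ℤ_[ℓ]ˣ) : ℤ_[ℓ]) - 1 ∈
      (Ideal.span {(ℓ : ℤ_[ℓ]) ^ m} : Ideal ℤ_[ℓ]) := by
    rw [← PadicInt.norm_le_pow_iff_mem_span_pow]
    have h5 : ‖((unitPart ℓ z : ℤ_[ℓ]ˣ) : ℤ_[ℓ]) - 1‖ = ‖(z : ℚ_[ℓ]) - 1‖ := by
      rw [← hu]
      simp [PadicInt.norm_def]
    rw [h5]
    refine hz.trans_eq ?_
    rw [Padic.norm_p, inv_pow, zpow_neg, zpow_natCast]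
  rw [← PadicInt.ker_toZModPow, RingHom.mem_ker, map_sub, map_one, sub_eq_zero] at h4
  exact h4

end Padic

/-! ## The theorem -/

/-- **Leaf L5'**: norms from the subfields of `ℚ_ℓ(μ_{ℓ^e})`, sharp form, every prime `ℓ`. -/
theorem localCycloNormSharp : LocalCycloNormSharpSpec := by
  classical
  intro ℓ hℓ e he W hW b hb
  obtain ⟨n, rfl⟩ : ∃ n, e = n + 1 := ⟨e - 1, by omega⟩
  haveI hne : NeZero (ℓ ^ (n + 1)) := ⟨(pow_pos hℓ.out.pos _).ne'⟩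
  -- the groups
  set cl : (PadicAlgCl ℓ ≃ₐ[ℚ_[ℓ]] PadicAlgCl ℓ) →* (ZMod (ℓ ^ (n + 1)))ˣ :=
    (cyc (ℓ ^ (n + 1))).comp (localGaloisToGlobal ℓ) with hcl
  set C : Subgroup (ZMod (ℓ ^ (n + 1)))ˣ := W.map cl with hC
  set U₀ : Subgroup GQ := C.comap (cyc (ℓ ^ (n + 1))) with hU₀
  have hU : IsOpenQ U₀ := isOpenQ_comap_cyc (ℓ ^ (n + 1)) C
  have hker : cl.ker ≤ W := fun τ hτ =>
    hW τ (loc_fixes_of_cyc_eq_one (ℓ ^ (n + 1)) ℓ τ (MonoidHom.mem_ker.mp hτ))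
  have hWeq : locSub ℓ 1 U₀ = W := by
    ext τ
    rw [mem_locSub, one_mul, inv_one, mul_one]
    show cl τ ∈ W.map cl ↔ τ ∈ W
    constructor
    · rintro ⟨w, hw, hwτ⟩
      have h1 : τ * w⁻¹ ∈ cl.ker := by
        rw [MonoidHom.mem_ker, map_mul, map_inv, hwτ, mul_inv_cancel]
      have h2 := W.mul_mem (hker h1) hw
      rwa [inv_mul_cancel_right] at h2
    · exact fun h => Subgroup.mem_map_of_mem cl h
  have hVopen : IsOpenL ℓ (locSub ℓ 1 U₀) := isOpenL_locSub ℓ 1 U₀ hU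
  haveI hWfin : W.FiniteIndex := by
    rw [← hWeq]
    exact RelNormH707.finiteIndex_of_isOpenL ℓ hVopen
  haveI : Finite ((PadicAlgCl ℓ ≃ₐ[ℚ_[ℓ]] PadicAlgCl ℓ) ⧸ W) :=
    Subgroup.finite_quotient_of_finiteIndex
  haveI : Fintype ((PadicAlgCl ℓ ≃ₐ[ℚ_[ℓ]] PadicAlgCl ℓ) ⧸ W) := Fintype.ofFinite _
  -- `{1}` is a system of representatives
  have hR : IsDoubleCosetReps U₀ (localGaloisToGlobal ℓ).range {1} := by
    intro g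
    obtain ⟨τ, hτ⟩ := exists_loc_cyc_eq ℓ n (cyc (ℓ ^ (n + 1)) g)
    refine ⟨1, ⟨Finset.mem_singleton_self 1, g * (localGaloisToGlobal ℓ τ)⁻¹, ?_,
      localGaloisToGlobal ℓ τ, ⟨τ, rfl⟩, by group⟩, fun r hr => Finset.mem_singleton.mp hr.1⟩
    show cyc (ℓ ^ (n + 1)) (g * (localGaloisToGlobal ℓ τ)⁻¹) ∈ C
    rw [map_mul, map_inv, hτ, mul_inv_cancel]
    exact C.one_mem
  -- density
  have hbfix : IsFixedBy ℓ (locSub ℓ 1 U₀) (b : PadicAlgCl ℓ) := by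
    intro τ hτ
    rw [hWeq] at hτ
    exact congrArg Units.val (hb τ hτ)
  have hdense := H904.mem_closure_of_isFixedBy ℓ hU 1 (b : PadicAlgCl ℓ) hbfix
  have hℓ0 : (ℓ : PadicAlgCl ℓ) ≠ 0 := Nat.cast_ne_zero.mpr hℓ.out.ne_zero
  have hnormℓ : ‖(ℓ : PadicAlgCl ℓ)‖ = ‖(ℓ : ℚ_[ℓ])‖ := by
    rw [← PadicAlgCl.norm_extends, map_natCast]
  have hℓpos : 0 < ‖(ℓ : PadicAlgCl ℓ)‖ := norm_pos_iff.mpr hℓ0
  have hℓle : ‖(ℓ : PadicAlgCl ℓ)‖ ≤ 1 := by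
    rw [hnormℓ]; exact (Padic.norm_p_lt_one).le
  have hbpos : 0 < ‖(b : PadicAlgCl ℓ)‖ := norm_pos_iff.mpr b.ne_zero
  set ε : ℝ := ‖(ℓ : PadicAlgCl ℓ)‖ ^ (n + 1) with hε
  have hεpos : 0 < ε := pow_pos hℓpos _
  have hεle : ε ≤ 1 := pow_le_one₀ hℓpos.le hℓle
  rw [Metric.mem_closure_iff] at hdense
  obtain ⟨_, ⟨x₀, rfl⟩, hx₀⟩ := hdense (ε * ‖(b : PadicAlgCl ℓ)‖) (mul_pos hεpos hbpos)
  rw [dist_eq_norm, H904.locEmb_apply, inv_one, AlgEquiv.one_apply] at hx₀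
  -- the global element
  have hιnorm : ‖padicEmbedding ℓ (x₀ : Qb)‖ = ‖(b : PadicAlgCl ℓ)‖ := by
    have hlt : ‖(b : PadicAlgCl ℓ) - padicEmbedding ℓ (x₀ : Qb)‖ < ‖(b : PadicAlgCl ℓ)‖ :=
      hx₀.trans_le (mul_le_of_le_one_left hbpos.le hεle)
    have h1 : padicEmbedding ℓ (x₀ : Qb) =
        (b : PadicAlgCl ℓ) + (padicEmbedding ℓ (x₀ : Qb) - (b : PadicAlgCl ℓ)) := by ring
    rw [h1]
    have hlt' : ‖padicEmbedding ℓ (x₀ : Qb) - (b : PadicAlgCl ℓ)‖ < ‖(b : PadicAlgCl ℓ)‖ := by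
      rwa [← norm_neg, neg_sub]
    rw [IsUltrametricDist.norm_add_eq_max_of_norm_ne_norm (ne_of_gt hlt'), max_eq_left hlt'.le]
  have hx₀ne : (x₀ : Qb) ≠ 0 := by
    intro h
    rw [h, map_zero, norm_zero] at hιnorm
    exact hbpos.ne hιnorm
  set a : Qbˣ := Units.mk0 (x₀ : Qb) hx₀ne with ha_def
  have ha : GFixed U₀ a := by
    intro u hu
    apply Units.ext
    show u (x₀ : Qb) = (x₀ : Qb)
    exact x₀.2 ⟨u, hu⟩
  have hιa : ((locPushMul ℓ 1 a : (PadicAlgCl ℓ)ˣ) : PadicAlgCl ℓ) = padicEmbedding ℓ (x₀ : Qb) := by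
    rw [locPushMul_coe, inv_one, AlgEquiv.one_apply, ha_def, Units.val_mk0]
  have hιfix : LFixed ℓ W (locPushMul ℓ 1 a) := by
    have := H934.lFixed_locPushMul ℓ ha 1
    rwa [hWeq] at this
  -- the global norm
  obtain ⟨⟨y, hy⟩, hprod⟩ := H934.orbitNorm U₀ hU a ha
  have hG1 := hprod ℓ {1} hR
  rw [Finset.prod_singleton, hWeq] at hG1
  have hyloc : ((relNorm W (locPushMul ℓ 1 a) : (PadicAlgCl ℓ)ˣ) : PadicAlgCl ℓ) =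
      algebraMap ℚ_[ℓ] (PadicAlgCl ℓ) ((y : ℚ) : ℚ_[ℓ]) := by
    rw [← hG1, locPushMul_coe, inv_one, AlgEquiv.one_apply, hy, AlgHom.commutes, map_ratCast,
      eq_ratCast]
  -- the quotient `x = b / ι a`
  set x : (PadicAlgCl ℓ)ˣ := b * (locPushMul ℓ 1 a)⁻¹ with hx_def
  have hxfix : LFixed ℓ W x := by
    intro τ hτ
    rw [hx_def, smul_mul', smul_inv', hb τ hτ, hιfix τ hτ]
  have hbx : b = locPushMul ℓ 1 a * x := by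
    rw [hx_def, mul_comm b, mul_inv_cancel_left]
  have hxclose : ‖(x : PadicAlgCl ℓ) - 1‖ ≤ ε := by
    have h1 : (x : PadicAlgCl ℓ) - 1 =
        ((b : PadicAlgCl ℓ) - padicEmbedding ℓ (x₀ : Qb)) * (padicEmbedding ℓ (x₀ : Qb))⁻¹ := by
      have hne : padicEmbedding ℓ (x₀ : Qb) ≠ 0 := by
        rw [← norm_pos_iff, hιnorm]; exact hbpos
      rw [hx_def, Units.val_mul, Units.val_inv_eq_inv_val, hιa]
      field_simp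
    rw [h1, norm_mul, norm_inv, hιnorm]
    rw [← div_eq_mul_inv, div_le_iff₀ hbpos]
    exact hx₀.le
  -- the norm of `x` is close to `1`
  have hNx : ‖((relNorm W x : (PadicAlgCl ℓ)ˣ) : PadicAlgCl ℓ) - 1‖ ≤ ε := by
    rw [H934.relNorm_eq_prod, Units.coe_prod]
    have h := (norm_prod_sub_prod_le (Finset.univ :
      Finset ((PadicAlgCl ℓ ≃ₐ[ℚ_[ℓ]] PadicAlgCl ℓ) ⧸ W))
      (fun t => (((Quotient.out t : PadicAlgCl ℓ ≃ₐ[ℚ_[ℓ]] PadicAlgCl ℓ) • x :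
        (PadicAlgCl ℓ)ˣ) : PadicAlgCl ℓ)) (fun _ => (1 : PadicAlgCl ℓ)) ε hεpos.le hεle
      (fun t _ => by
        rw [norm_one, mul_one]
        have h2 : (((Quotient.out t : PadicAlgCl ℓ ≃ₐ[ℚ_[ℓ]] PadicAlgCl ℓ) • x :
            (PadicAlgCl ℓ)ˣ) : PadicAlgCl ℓ) - 1 =
            (Quotient.out t : PadicAlgCl ℓ ≃ₐ[ℚ_[ℓ]] PadicAlgCl ℓ) ((x : PadicAlgCl ℓ) - 1) := by
          rw [map_sub, map_one]
          rfl
        rw [h2, VdegH707.norm_algEquiv]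
        exact hxclose)).2
    simpa using h
  -- rationality
  obtain ⟨yb, hyb0, hyb⟩ := RelNormH707.relNorm_rational_local ℓ hb
  obtain ⟨z, hz0, hz⟩ := RelNormH707.relNorm_rational_local ℓ hxfix
  have hy0 : ((y : ℚ) : ℚ_[ℓ]) ≠ 0 := by
    rw [Rat.cast_ne_zero]; exact y.ne_zero
  have hmul : yb = ((y : ℚ) : ℚ_[ℓ]) * z := by
    apply (algebraMap ℚ_[ℓ] (PadicAlgCl ℓ)).injective
    rw [map_mul, ← hyb, ← hyloc, ← hz, ← Units.val_mul, ← RelNormH707.relNorm_mul, ← hbx]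
  have hzclose : ‖z - 1‖ ≤ ‖(ℓ : ℚ_[ℓ])‖ ^ (n + 1) := by
    have h1 : ‖algebraMap ℚ_[ℓ] (PadicAlgCl ℓ) (z - 1)‖ = ‖z - 1‖ :=
      PadicAlgCl.norm_extends ℓ _
    rw [← h1, map_sub, map_one, ← hz, ← hnormℓ]
    exact hNx
  -- the unit residue
  have hres : unitResidue ℓ (n + 1) (Units.mk0 yb hyb0) ∈ C := by
    have h1 : Units.mk0 yb hyb0 = toPadicUnits ℓ y * Units.mk0 z hz0 := by
      apply Units.ext
      rw [Units.val_mul, Units.val_mk0, Units.val_mk0, coe_toPadicUnits]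
      exact hmul
    rw [h1, map_mul, unitResidue_eq_one_of_norm_sub_one_le ℓ (n + 1) (Nat.succ_pos n)
      (Units.mk0 z hz0) (by rw [Units.val_mk0]; exact hzclose), mul_one]
    exact unitResidue_norm_mem ℓ (n + 1) C a ha y hy
  obtain ⟨τ, hτW, hτ⟩ := hres
  refine ⟨yb.valuation,
    ((unitResidue ℓ (n + 1) (Units.mk0 yb hyb0) : (ZMod (ℓ ^ (n + 1)))ˣ) :
      ZMod (ℓ ^ (n + 1))).val, τ, hτW, ?_, ?_⟩
  · intro ξ hξ
    rw [loc_acts (ℓ ^ (n + 1)) ℓ τ ξ hξ]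
    have h2 : cyc (ℓ ^ (n + 1)) (localGaloisToGlobal ℓ τ) =
        unitResidue ℓ (n + 1) (Units.mk0 yb hyb0) := hτ
    rw [h2]
  · have key := norm_sub_unitResidue_le' ℓ (n + 1) (Units.mk0 yb hyb0)
    rw [Units.val_mk0] at key
    have e1 : ((relNorm W b : (PadicAlgCl ℓ)ˣ) : PadicAlgCl ℓ) -
        (ℓ : PadicAlgCl ℓ) ^ yb.valuation *
          ((((unitResidue ℓ (n + 1) (Units.mk0 yb hyb0) : (ZMod (ℓ ^ (n + 1)))ˣ) :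
            ZMod (ℓ ^ (n + 1))).val : ℕ) : PadicAlgCl ℓ) =
        algebraMap ℚ_[ℓ] (PadicAlgCl ℓ) (yb - (ℓ : ℚ_[ℓ]) ^ yb.valuation *
          ((((unitResidue ℓ (n + 1) (Units.mk0 yb hyb0) : (ZMod (ℓ ^ (n + 1)))ˣ) :
            ZMod (ℓ ^ (n + 1))).val : ℕ) : ℚ_[ℓ])) := by
      rw [hyb, map_sub, map_mul, map_zpow₀, map_natCast, map_natCast]
    have e2 : (ℓ : PadicAlgCl ℓ) = algebraMap ℚ_[ℓ] (PadicAlgCl ℓ) (ℓ : ℚ_[ℓ]) := by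
      rw [map_natCast]
    rw [e1, e2]
    have hn1 : ∀ x : ℚ_[ℓ], ‖algebraMap ℚ_[ℓ] (PadicAlgCl ℓ) x‖ = ‖x‖ :=
      fun x => PadicAlgCl.norm_extends ℓ x
    rw [hn1, hn1]
    exact_mod_cast key

end Fermat.Agent.LT.CFT.H1.L5
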